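/-
S41 (level raising) — TOP-LEVEL CONTRACT (helper77, interface referee; dispatcher helper29).

`s41_of_plugs` : the frozen statement S41 from THREE literal plug Props, all stated in
Prelude / Mathlib vocabulary only (no new definitions):

* `NonEisPlug`  [NONEIS, E-side]      : an elliptic curve over `ℚ` with irreducible `E[p]` has, outside
  any finite set, a good prime `ℓ ≠ p` with `p ∤ ℓ + 1 - a_ℓ`  (= helper44 `NonEis44.nonEisenstein`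
  once `TorsCard`, `TorsLift`, `ChebPP` are discharged);
* `EigenOfFormPlug` [QEXP, easy]      : a `CuspForm.IsNormalizedEigenform` is an eigenvector of every
  Prelude Hecke operator `CuspForm.heckeTLin 2 _ _` (`ℓ ∤ N`) with eigenvalue its `ℓ`-th coefficient;
* `LevelRaisingHecke` [THE THEOREM]   : Ribet's level raising for Hecke eigen-systems of cusp forms —
  no elliptic curve: the curve only enters through an arbitrary integer-valued function `c` on an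
  arbitrary set `PS` of primes not dividing `N q' p`, to which the eigen-system is congruent.

The converse of `EigenOfFormPlug` (a non-zero eigenvector of the FULL Hecke algebra, normalised, is an
`IsNormalizedEigenform` whose prime coefficients are the eigenvalues) is the landed
`Fermat.Agent.Lib.EigenformOfEigenvector.isNormalizedEigenform_of_eigenvector`; the conclusion of
`LevelRaisingHecke` is stated in its literal hypothesis shape.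
-/
import Mathlib
import Fermat.Prelude.Def_FLTPrelim_ModularRep
import Fermat.Prelude.Def_FreyPackage_LevelRaising
import Fermat.Prelude.Def_CuspForm_HeckeAlgebra
import Fermat.Agent.Lib.EigenformOfEigenvector

set_option autoImplicit false

open WeierstrassCurve WeierstrassCurve.Affine WeierstrassCurve.Affine.Point
open scoped CongruenceSubgroup

namespace Fermat.Agent.S41.Contract77

open CongruenceSubgroup ModularFormClass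

/-- the ring of algebraic integers in `ℂ` (the frozen statement's coefficient ring) -/
abbrev Zbar : Type := integralClosure ℤ ℂ

/-- **[NONEIS]** (E-side): outside any finite set there is a good prime `ℓ ≠ p` at which the curve is
not Eisenstein mod `p`. -/
def NonEisPlug : Prop :=
  ∀ (E : WeierstrassCurve ℚ) [E.IsElliptic] (W : WeierstrassCurve ℤ) (_ : W.IsIntegralModelOf E)
    (p : ℕ) (_ : p.Prime) (_ : p ≠ 2)
    (_ : GaloisRepIsIrreducible (K := AlgebraicClosure ℚ) ℚ E p) (B : Finset ℕ),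
    ∃ ℓ : ℕ, ℓ.Prime ∧ ℓ ∉ B ∧ W.IsGoodPrimeFor ℓ ∧ ℓ ≠ p ∧
      ¬ (p : ℤ) ∣ (ℓ : ℤ) + 1 - W.apOfModel ℓ

/-- **[QEXP]** (form side, easy direction): a normalised eigenform is an eigenvector of the Prelude
Hecke operators `T_ℓ`, `ℓ ∤ N`, with eigenvalue `a_ℓ`. -/
def EigenOfFormPlug : Prop :=
  ∀ (N : ℕ) (f : CuspForm (Gamma0 N) 2), f.IsNormalizedEigenform →
    ∀ (ℓ : ℕ) (hℓ : ℓ.Prime) (hℓN : ¬ ℓ ∣ N),
      CuspForm.heckeTLin 2 hℓ hℓN f = qCoeff f ℓ • f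

/-- **[LEVEL RAISING, Hecke form]** (the theorem; no elliptic curve).  `f ≠ 0` of level `N` is an
eigenvector of all `T_ℓ`, `ℓ ∤ N`, with eigenvalues `lam ℓ`; `𝔪 ∣ p` is a maximal ideal of `ℤ̄`;
`lam` is non-Eisenstein at `𝔪` outside every finite set of primes; `lam q'² ≡ (q'+1)²`; `lam` is
congruent to the integers `c ℓ` on a set `PS` of primes not dividing `N q' p`.  Then there is a
non-zero eigenvector `g` of the FULL Hecke algebra of level `N q'`, with eigenvalues `mu`, congruent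
to `c` on `PS` modulo some maximal `𝔪' ∣ p`, and with `U_{q'}`-eigenvalue of square `1`. -/
def LevelRaisingHecke : Prop :=
  ∀ (p N q' : ℕ) (_ : p.Prime) (_ : p ≠ 2) (_ : 0 < N) (_ : q'.Prime) (_ : ¬ q' ∣ N) (_ : q' ≠ p)
    [NeZero (N * q')]
    (f : CuspForm (Gamma0 N) 2) (_ : f ≠ 0) (lam : ℕ → ℂ)
    (_ : ∀ (ℓ : ℕ) (hℓ : ℓ.Prime) (hℓN : ¬ ℓ ∣ N), CuspForm.heckeTLin 2 hℓ hℓN f = lam ℓ • f)
    (𝔪 : Ideal Zbar) (_ : 𝔪.IsMaximal) (_ : (p : Zbar) ∈ 𝔪)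
    (_ : ∀ B : Finset ℕ, ∃ ℓ : ℕ, ℓ.Prime ∧ ℓ ∉ B ∧
      ∃ a : Zbar, (a : ℂ) = lam ℓ ∧ a - ((ℓ : Zbar) + 1) ∉ 𝔪)
    (_ : ∃ a : Zbar, (a : ℂ) = lam q' ∧ a ^ 2 - ((q' : Zbar) + 1) ^ 2 ∈ 𝔪)
    (PS : Set ℕ) (c : ℕ → ℤ) (_ : ∀ ℓ ∈ PS, ℓ.Prime ∧ ¬ ℓ ∣ N * q' ∧ ℓ ≠ p)
    (_ : ∀ ℓ ∈ PS, ∃ a : Zbar, (a : ℂ) = lam ℓ ∧ a - ((c ℓ : ℤ) : Zbar) ∈ 𝔪),
    ∃ (g : CuspForm (Gamma0 (N * q')) 2) (mu : ℕ → ℂ) (𝔪' : Ideal Zbar),
      g ≠ 0 ∧ 𝔪'.IsMaximal ∧ (p : Zbar) ∈ 𝔪' ∧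
      (∀ (ℓ : ℕ) (hℓ : ℓ.Prime) (hℓN : ¬ ℓ ∣ N * q'),
        CuspForm.heckeTLin 2 hℓ hℓN g = mu ℓ • g) ∧
      (∀ (ℓ : ℕ) (_ : ℓ.Prime) (hℓN : ℓ ∣ N * q'), CuspForm.heckeULin 2 hℓN g = mu ℓ • g) ∧
      (∀ ℓ ∈ PS, ∃ a : Zbar, (a : ℂ) = mu ℓ ∧ a - ((c ℓ : ℤ) : Zbar) ∈ 𝔪') ∧
      mu q' ^ 2 = 1

/-- an integer lying in a maximal ideal of `ℤ̄` over `p` is divisible by `p`. -/
theorem dvd_of_intCast_mem {p : ℕ} (hp : p.Prime) {𝔪 : Ideal Zbar} (hmax : 𝔪.IsMaximal)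
    (hpm : (p : Zbar) ∈ 𝔪) {n : ℤ} (hn : ((n : ℤ) : Zbar) ∈ 𝔪) : (p : ℤ) ∣ n := by
  by_contra hdvd
  have hcop : IsCoprime (p : ℤ) n :=
    (Nat.prime_iff_prime_int.mp hp).coprime_iff_not_dvd.mpr hdvd
  obtain ⟨x, y, hxy⟩ := hcop
  have h1 : ((x : ℤ) : Zbar) * (p : Zbar) + ((y : ℤ) : Zbar) * ((n : ℤ) : Zbar) = 1 := by
    have := congrArg (fun z : ℤ => ((z : ℤ) : Zbar)) hxy
    simpa using this
  have hmem : (1 : Zbar) ∈ 𝔪 := by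
    rw [← h1]
    exact 𝔪.add_mem (𝔪.mul_mem_left _ hpm) (𝔪.mul_mem_left _ hn)
  exact hmax.ne_top ((Ideal.eq_top_iff_one 𝔪).mpr hmem)

/-- **S41 from the three plugs.** -/
theorem s41_of_plugs (hNE : NonEisPlug) (hEig : EigenOfFormPlug) (hLRH : LevelRaisingHecke)
    (E : WeierstrassCurve ℚ) [E.IsElliptic] {W : WeierstrassCurve ℤ} (hW : W.IsIntegralModelOf E)
    {p N q' : ℕ} (hp : p.Prime) (hp2 : p ≠ 2) (hN : 0 < N) (hq' : q'.Prime) (hq'N : ¬ q' ∣ N)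
    (hq'p : q' ≠ p)
    (hirr : GaloisRepIsIrreducible (K := AlgebraicClosure ℚ) ℚ E p)
    (f : CuspForm (CongruenceSubgroup.Gamma0 N) 2) (𝔪 : Ideal (integralClosure ℤ ℂ))
    (hf : f.IsNormalizedEigenform) (hmax : 𝔪.IsMaximal) (hpm : (p : integralClosure ℤ ℂ) ∈ 𝔪)
    (hcong : ∀ ℓ : ℕ, ℓ.Prime → W.IsGoodPrimeFor ℓ → ¬ ℓ ∣ N → ℓ ≠ p →
      ∃ a : integralClosure ℤ ℂ, (a : ℂ) = ModularFormClass.qCoeff f ℓ ∧
        a - ((W.apOfModel ℓ : ℤ) : integralClosure ℤ ℂ) ∈ 𝔪)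
    (hLR : ∃ a : integralClosure ℤ ℂ, (a : ℂ) = ModularFormClass.qCoeff f q' ∧
      a ^ 2 - ((q' : integralClosure ℤ ℂ) + 1) ^ 2 ∈ 𝔪) :
    ∃ (g : CuspForm (CongruenceSubgroup.Gamma0 (N * q')) 2) (𝔪' : Ideal (integralClosure ℤ ℂ)),
      g.IsNormalizedEigenform ∧ 𝔪'.IsMaximal ∧ (p : integralClosure ℤ ℂ) ∈ 𝔪' ∧
      (∀ ℓ : ℕ, ℓ.Prime → W.IsGoodPrimeFor ℓ → ¬ ℓ ∣ N * q' → ℓ ≠ p →
        ∃ a : integralClosure ℤ ℂ, (a : ℂ) = ModularFormClass.qCoeff g ℓ ∧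
          a - ((W.apOfModel ℓ : ℤ) : integralClosure ℤ ℂ) ∈ 𝔪') ∧
      g.IsNewAt q' := by
  haveI : NeZero (N * q') := ⟨Nat.mul_ne_zero hN.ne' hq'.ne_zero⟩
  -- the set of primes on which the congruence is transported
  set PS : Set ℕ := {ℓ | ℓ.Prime ∧ W.IsGoodPrimeFor ℓ ∧ ¬ ℓ ∣ N * q' ∧ ℓ ≠ p} with hPSdef
  -- non-Eisenstein for the eigen-system of `f`
  have hnoneis : ∀ B : Finset ℕ, ∃ ℓ : ℕ, ℓ.Prime ∧ ℓ ∉ B ∧
      ∃ a : Zbar, (a : ℂ) = qCoeff f ℓ ∧ a - ((ℓ : Zbar) + 1) ∉ 𝔪 := by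
    intro B
    obtain ⟨ℓ, hℓ, hℓB, hgood, hℓp, hndvd⟩ := hNE E W hW p hp hp2 hirr (B ∪ N.primeFactors)
    have hℓB' : ℓ ∉ B := fun h => hℓB (Finset.mem_union_left _ h)
    have hℓN : ¬ ℓ ∣ N := fun h =>
      hℓB (Finset.mem_union_right _ (Nat.mem_primeFactors.mpr ⟨hℓ, h, hN.ne'⟩))
    obtain ⟨a, ha, ham⟩ := hcong ℓ hℓ hgood hℓN hℓp
    refine ⟨ℓ, hℓ, hℓB', a, ha, fun hmem => hndvd ?_⟩
    have hdiff : (((ℓ : ℤ) + 1 - W.apOfModel ℓ : ℤ) : Zbar) ∈ 𝔪 := by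
      have : (((ℓ : ℤ) + 1 - W.apOfModel ℓ : ℤ) : Zbar) =
          (a - ((W.apOfModel ℓ : ℤ) : Zbar)) - (a - ((ℓ : Zbar) + 1)) := by
        push_cast
        ring
      rw [this]
      exact 𝔪.sub_mem ham hmem
    exact dvd_of_intCast_mem hp hmax hpm hdiff
  -- level raising
  obtain ⟨g, mu, 𝔪', hg0, hmax', hpm', hT, hU, hcong', hnew⟩ :=
    hLRH p N q' hp hp2 hN hq' hq'N hq'p f hf.ne_zero (fun ℓ => qCoeff f ℓ)
      (fun ℓ hℓ hℓN => hEig N f hf ℓ hℓ hℓN) 𝔪 hmax hpm hnoneis hLR PS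
      (fun ℓ => W.apOfModel ℓ) (fun ℓ hℓ => ⟨hℓ.1, hℓ.2.2.1, hℓ.2.2.2⟩)
      (fun ℓ hℓ => hcong ℓ hℓ.1 hℓ.2.1 (fun h => hℓ.2.2.1 (h.mul_right q')) hℓ.2.2.2)
  -- normalise
  obtain ⟨hnorm, hcoeff⟩ :=
    Fermat.Agent.Lib.EigenformOfEigenvector.isNormalizedEigenform_of_eigenvector g hg0 mu hT hU
  refine ⟨(qCoeff g 1)⁻¹ • g, 𝔪', hnorm, hmax', hpm', ?_, ?_⟩
  · intro ℓ hℓ hgood hℓN hℓp
    obtain ⟨a, ha, ham⟩ := hcong' ℓ ⟨hℓ, hgood, hℓN, hℓp⟩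
    exact ⟨a, ha.trans (hcoeff ℓ hℓ).symm, ham⟩
  · show qCoeff ((qCoeff g 1)⁻¹ • g : CuspForm (Gamma0 (N * q')) 2) q' ^ 2 = 1
    rw [hcoeff q' hq']
    exact hnew

end Fermat.Agent.S41.Contract77
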