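/-
S41 / plug (2) of `Contract77` (helper77): **a normalised eigenform is an eigenvector of the Prelude
Hecke operators `T_ℓ`, `ℓ ∤ N`** — `eigenOfFormPlug : Contract77.EigenOfFormPlug`.

Proof: compare `q`-coefficients (`Lib.EigenformOfEigenvector.qCoeff_heckeTLin`), using the four
coefficient identities of `CuspForm.IsNormalizedEigenform`.
-/
import Mathlib
import Fermat.Prelude.Thm_UpperHalfPlane_eq_of_forall_qCoeff_eq
import Fermat.Agent.S41.Contract77

set_option autoImplicit false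

namespace Fermat.Agent.S41.QExp77

open CongruenceSubgroup ModularFormClass UpperHalfPlane
open Fermat.Agent.Lib.EigenformOfEigenvector

variable {N : ℕ} {k : ℤ}

/-- cusp forms of level `Γ₀(N)` with the same `q`-coefficients are equal. -/
theorem eq_of_forall_qCoeff_eq (f g : CuspForm (Gamma0 N) k)
    (h : ∀ n, qCoeff f n = qCoeff g n) : f = g := by
  have hΓ := one_mem_strictPeriods_Gamma0 N
  have : Fact (IsCusp OnePoint.infty
      (Subgroup.map (Matrix.SpecialLinearGroup.mapGL ℝ) (Gamma0 N))) :=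
    ⟨Subgroup.isCusp_of_mem_strictPeriods one_pos hΓ⟩
  apply DFunLike.coe_injective
  exact UpperHalfPlane.eq_of_forall_qCoeff_eq
    (SlashInvariantFormClass.periodic_comp_ofComplex f hΓ) (ModularFormClass.holo f)
    (ModularFormClass.bdd_at_infty f)
    (SlashInvariantFormClass.periodic_comp_ofComplex g hΓ) (ModularFormClass.holo g)
    (ModularFormClass.bdd_at_infty g) h

/-- the Hecke relation at a prime `ℓ ∤ N` for the coefficients of a normalised eigenform. -/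
theorem coeff_rel {f : CuspForm (Gamma0 N) 2} (hf : f.IsNormalizedEigenform) {ℓ : ℕ}
    (hℓ : ℓ.Prime) (hℓN : ¬ ℓ ∣ N) (n : ℕ) :
    qCoeff f (n * ℓ) + (if ℓ ∣ n then (ℓ : ℂ) ^ ((2 : ℤ) - 1) * qCoeff f (n / ℓ) else 0) =
      qCoeff f ℓ * qCoeff f n := by
  have hpow : (ℓ : ℂ) ^ ((2 : ℤ) - 1) = (ℓ : ℂ) := by norm_num
  rw [hpow]
  rcases Nat.eq_zero_or_pos n with rfl | hn
  · simp [qCoeff_zero_eq_zero]
  -- write `n = ℓ ^ r * m` with `ℓ ∤ m`
  obtain ⟨r, m, hm, rfl⟩ := Nat.exists_eq_pow_mul_and_not_dvd hn.ne' ℓ hℓ.ne_one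
  have hcop : ∀ s : ℕ, (ℓ ^ s).Coprime m := fun s =>
    Nat.Coprime.pow_left s ((Nat.Prime.coprime_iff_not_dvd hℓ).mpr hm)
  have hmul : ∀ s : ℕ, qCoeff f (ℓ ^ s * m) = qCoeff f (ℓ ^ s) * qCoeff f m := fun s =>
    hf.qCoeff_mul_of_coprime _ _ (hcop s)
  have h1 : ℓ ^ r * m * ℓ = ℓ ^ (r + 1) * m := by ring
  rw [h1, hmul (r + 1), hmul r]
  rcases Nat.eq_zero_or_pos r with rfl | hr
  · -- `ℓ ∤ n`
    have hnd : ¬ ℓ ∣ ℓ ^ 0 * m := by simpa using hm
    rw [if_neg hnd]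
    simp [hf.qCoeff_one]
  · obtain ⟨r', rfl⟩ : ∃ r', r = r' + 1 := ⟨r - 1, by omega⟩
    have hd : ℓ ∣ ℓ ^ (r' + 1) * m := Dvd.dvd.mul_right (dvd_pow_self ℓ (Nat.succ_ne_zero r')) m
    have hdiv : ℓ ^ (r' + 1) * m / ℓ = ℓ ^ r' * m := by
      rw [pow_succ, mul_assoc, mul_comm ℓ m, ← mul_assoc]
      exact Nat.mul_div_cancel _ hℓ.pos
    rw [if_pos hd, hdiv, hmul r', hf.qCoeff_prime_pow_of_not_dvd ℓ r' hℓ hℓN]
    ring

/-- **plug (2) of the S41 contract.** -/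
theorem eigenOfFormPlug : Contract77.EigenOfFormPlug := by
  intro N f hf ℓ hℓ hℓN
  apply eq_of_forall_qCoeff_eq
  intro n
  rw [qCoeff_heckeTLin hℓ hℓN f n, qCoeff_smul, coeff_rel hf hℓ hℓN n]

end Fermat.Agent.S41.QExp77
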